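import Mathlib
import Fermat.Agent.LT.H129.SplitSpec
import Fermat.Agent.LT.H11.LC
import Fermat.Agent.LT.H11.SC

/-!
# Row LT, tower T3, sub-leaf T3.18a.4.5.S4 `SplitHaarC129` (helper904, registry row 1503)

OFF-MAIN.  Cut: `LT/H129/SplitSpec.lean` of helper129 (byte-identical copy, sha256 3547169e,
with its imports `LT/T3/H893/NIntSpec.lean` 1ddb5c45, `LT/T3/H736/ASSpec.lean` a661c778, ...).
Assets: `LT/H11/LC.lean`, `LT/H11/SC.lean` of helper11 (byte-identical copies, Mathlib only).

`splitHaar_of904 K : SplitOpenC129 K → SplitSectionC129 K → SplitBoxC129 K → SplitHaarC129 K`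
VERBATIM: the image `μ = p_* (ν|_{E₀})` of the restriction of a Haar measure `ν` of `𝔸_K` to the
open subgroup `E₀ = outGrp K 𝔫 v₀` under the projection `p = splitProj129 K v₀` is a Haar measure
of `K_{v₀} × (S_∞ → ℂ)`:

* `μ` is invariant: `h = p X_h` with `X_h ∈ E₀` (S2), `p (X_h + X) = h + p X`, `X_h + E₀ = E₀`
  (`E₀` is an additive subgroup: `idealClosure` is the closure of an additive subgroup) and `ν` is
  invariant;
* `μ` is finite on the compact neighbourhood `𝒪_{v₀} × closedBall 0 1` of `0` (S3) and non-zero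
  on it (S1: `E₀ ∩ p⁻¹ (𝒪_{v₀} × ball 0 1)` is open and contains `0`);
* `Measure.isAddHaarMeasure_of_isCompact_nonempty_interior`.
-/

set_option autoImplicit false
set_option linter.style.haveILetI false

open IsDedekindDomain NumberField MeasureTheory
open Fermat.Agent.LT.H556.A0 Fermat.Agent.LT.T3.AS Fermat.Agent.LT.T3.AS.N893
open Fermat.Agent.LT.H129

noncomputable section

namespace Fermat.Agent.LT.T3.H904

variable (K : Type) [Field K] [NumberField K]

/-! ## 1. The projection -/

theorem continuous_finHom904 (v : HeightOneSpectrum (𝓞 K)) : Continuous (finHom K v) :=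
  (RestrictedProduct.continuous_eval v).comp continuous_snd

theorem continuous_infHom904 (w : InfinitePlace K) : Continuous (infHom K w) :=
  (InfinitePlace.Completion.isometry_extensionEmbedding w).continuous.comp
    ((continuous_apply w).comp continuous_fst)

theorem continuous_splitProj904 (v₀ : HeightOneSpectrum (𝓞 K)) :
    Continuous (splitProj129 K v₀) :=
  (continuous_finHom904 K v₀).prodMk (continuous_pi fun w => continuous_infHom904 K w)

theorem splitProj_add904 (v₀ : HeightOneSpectrum (𝓞 K)) (X Y : Adl K) :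
    splitProj129 K v₀ (X + Y) = splitProj129 K v₀ X + splitProj129 K v₀ Y :=
  Prod.ext (map_add (finHom K v₀) X Y) (funext fun w => map_add (infHom K w) X Y)

theorem splitProj_zero904 (v₀ : HeightOneSpectrum (𝓞 K)) :
    splitProj129 K v₀ 0 = 0 :=
  Prod.ext (map_zero (finHom K v₀)) (funext fun w => map_zero (infHom K w))

/-! ## 2. `E₀` is an additive subgroup -/

/-- The closure of the ideal at `v` as the closure of an additive subgroup. -/
def idealAddSubgroup904 (𝔫 : Ideal (𝓞 K)) (v : HeightOneSpectrum (𝓞 K)) :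
    AddSubgroup (v.adicCompletion K) :=
  (𝔫.toAddSubgroup.map
    (((algebraMap K (v.adicCompletion K)).comp (algebraMap (𝓞 K) K)).toAddMonoidHom)).topologicalClosure

theorem idealClosure_eq904 (𝔫 : Ideal (𝓞 K)) (v : HeightOneSpectrum (𝓞 K)) :
    idealClosure 𝔫 v = (idealAddSubgroup904 K 𝔫 v : Set (v.adicCompletion K)) := by
  rw [idealAddSubgroup904, AddSubgroup.topologicalClosure_coe]
  rfl

theorem zero_mem_outGrp904 (𝔫 : Ideal (𝓞 K)) (v₀ : HeightOneSpectrum (𝓞 K)) :
    (0 : Adl K) ∈ outGrp K 𝔫 v₀ := by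
  intro v _
  rw [map_zero, idealClosure_eq904]
  exact zero_mem _

theorem add_mem_outGrp904 (𝔫 : Ideal (𝓞 K)) (v₀ : HeightOneSpectrum (𝓞 K)) {X Y : Adl K}
    (hX : X ∈ outGrp K 𝔫 v₀) (hY : Y ∈ outGrp K 𝔫 v₀) : X + Y ∈ outGrp K 𝔫 v₀ := by
  intro v hv
  have h1 := hX v hv
  have h2 := hY v hv
  rw [idealClosure_eq904] at h1 h2 ⊢
  rw [map_add]
  exact add_mem h1 h2

theorem neg_mem_outGrp904 (𝔫 : Ideal (𝓞 K)) (v₀ : HeightOneSpectrum (𝓞 K)) {X : Adl K}
    (hX : X ∈ outGrp K 𝔫 v₀) : -X ∈ outGrp K 𝔫 v₀ := by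
  intro v hv
  have h1 := hX v hv
  rw [idealClosure_eq904] at h1 ⊢
  rw [map_neg]
  exact neg_mem h1

theorem preimage_add_outGrp904 (𝔫 : Ideal (𝓞 K)) (v₀ : HeightOneSpectrum (𝓞 K)) {X₀ : Adl K}
    (hX₀ : X₀ ∈ outGrp K 𝔫 v₀) : (fun X : Adl K => X₀ + X) ⁻¹' outGrp K 𝔫 v₀ = outGrp K 𝔫 v₀ := by
  ext X
  constructor
  · intro h
    have h' : X₀ + X ∈ outGrp K 𝔫 v₀ := h
    have := add_mem_outGrp904 K 𝔫 v₀ (neg_mem_outGrp904 K 𝔫 v₀ hX₀) h'
    rwa [neg_add_cancel_left] at this
  · intro h
    exact add_mem_outGrp904 K 𝔫 v₀ hX₀ h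

/-! ## 3. The leaf -/

/-- **T3.18a.4.5.S4** `SplitHaarC129` from S1, S2, S3, VERBATIM. -/
theorem splitHaar_of904 (h1 : SplitOpenC129 K) (h2 : SplitSectionC129 K)
    (h3 : SplitBoxC129 K) : SplitHaarC129 K := by
  intro hcpx
  letI : MeasurableSpace (Adl K) := borel (Adl K)
  haveI : BorelSpace (Adl K) := ⟨rfl⟩
  intro ν hν 𝔫 h𝔫 v₀
  letI : MeasurableSpace (v₀.adicCompletion K) := borel (v₀.adicCompletion K)
  haveI : BorelSpace (v₀.adicCompletion K) := ⟨rfl⟩
  haveI : SecondCountableTopology (v₀.adicCompletion K) :=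
    Fermat.Agent.LT.H11.SC.secondCountableTopology_adicCompletion_h11 K v₀
  have hE₀open : IsOpen (outGrp K 𝔫 v₀) := h1 𝔫 h𝔫 v₀
  have hE₀meas : MeasurableSet (outGrp K 𝔫 v₀) := hE₀open.measurableSet
  have hpc : Continuous (splitProj129 K v₀) := continuous_splitProj904 K v₀
  have hpm : Measurable (splitProj129 K v₀) := hpc.measurable
  -- invariance
  haveI hinv : (Measure.map (splitProj129 K v₀) (ν.restrict (outGrp K 𝔫 v₀))).IsAddLeftInvariant := by
    refine ⟨fun h => ?_⟩
    obtain ⟨Xh, hXh, hp1, hp2⟩ := h2 hcpx 𝔫 v₀ h.1 h.2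
    have hpX : splitProj129 K v₀ Xh = h := Prod.ext hp1 (funext hp2)
    rw [Measure.map_map (measurable_const_add h) hpm]
    have hcomp : (fun x => h + x) ∘ splitProj129 K v₀
        = splitProj129 K v₀ ∘ (fun X : Adl K => Xh + X) := by
      funext X
      show h + splitProj129 K v₀ X = splitProj129 K v₀ (Xh + X)
      rw [splitProj_add904, hpX]
    rw [hcomp, ← Measure.map_map hpm (measurable_const_add Xh)]
    congr 1
    have hpre := preimage_add_outGrp904 K 𝔫 v₀ hXh
    calc Measure.map (fun X : Adl K => Xh + X) (ν.restrict (outGrp K 𝔫 v₀))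
        = Measure.map (fun X : Adl K => Xh + X)
            (ν.restrict ((fun X : Adl K => Xh + X) ⁻¹' outGrp K 𝔫 v₀)) := by rw [hpre]
      _ = (Measure.map (fun X : Adl K => Xh + X) ν).restrict (outGrp K 𝔫 v₀) :=
          (Measure.restrict_map (measurable_const_add Xh) hE₀meas).symm
      _ = ν.restrict (outGrp K 𝔫 v₀) := by rw [map_add_left_eq_self]
  -- the compact neighbourhood of `0`
  have hOc : IsCompact (v₀.adicCompletionIntegers K : Set (v₀.adicCompletion K)) :=
    Fermat.Agent.LT.H11.LC.isCompact_integers_h11 K v₀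
  have hOo : IsOpen (v₀.adicCompletionIntegers K : Set (v₀.adicCompletion K)) :=
    Valued.isOpen_valuationSubring (v₀.adicCompletion K)
  have hK0c : IsCompact ((v₀.adicCompletionIntegers K : Set (v₀.adicCompletion K)) ×ˢ
      Metric.closedBall (0 : InfinitePlace K → ℂ) 1) := hOc.prod (isCompact_closedBall 0 1)
  have hUo : IsOpen ((v₀.adicCompletionIntegers K : Set (v₀.adicCompletion K)) ×ˢ
      Metric.ball (0 : InfinitePlace K → ℂ) 1) := hOo.prod Metric.isOpen_ball
  have hUsub : ((v₀.adicCompletionIntegers K : Set (v₀.adicCompletion K)) ×ˢ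
      Metric.ball (0 : InfinitePlace K → ℂ) 1) ⊆
      ((v₀.adicCompletionIntegers K : Set (v₀.adicCompletion K)) ×ˢ
      Metric.closedBall (0 : InfinitePlace K → ℂ) 1) :=
    Set.prod_mono le_rfl Metric.ball_subset_closedBall
  have h0U : (0 : v₀.adicCompletion K × (InfinitePlace K → ℂ)) ∈
      ((v₀.adicCompletionIntegers K : Set (v₀.adicCompletion K)) ×ˢ
      Metric.ball (0 : InfinitePlace K → ℂ) 1) :=
    ⟨zero_mem _, Metric.mem_ball_self one_pos⟩
  have hK0i : (interior ((v₀.adicCompletionIntegers K : Set (v₀.adicCompletion K)) ×ˢ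
      Metric.closedBall (0 : InfinitePlace K → ℂ) 1)).Nonempty :=
    ⟨0, interior_maximal hUsub hUo h0U⟩
  -- positivity
  have hpos : Measure.map (splitProj129 K v₀) (ν.restrict (outGrp K 𝔫 v₀))
      ((v₀.adicCompletionIntegers K : Set (v₀.adicCompletion K)) ×ˢ
        Metric.closedBall (0 : InfinitePlace K → ℂ) 1) ≠ 0 := by
    have hle := measure_mono (μ := Measure.map (splitProj129 K v₀) (ν.restrict (outGrp K 𝔫 v₀)))
      hUsub
    have hU : Measure.map (splitProj129 K v₀) (ν.restrict (outGrp K 𝔫 v₀))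
        ((v₀.adicCompletionIntegers K : Set (v₀.adicCompletion K)) ×ˢ
          Metric.ball (0 : InfinitePlace K → ℂ) 1) ≠ 0 := by
      rw [Measure.map_apply hpm hUo.measurableSet,
        Measure.restrict_apply (hpm hUo.measurableSet)]
      have hopen : IsOpen (splitProj129 K v₀ ⁻¹'
          ((v₀.adicCompletionIntegers K : Set (v₀.adicCompletion K)) ×ˢ
          Metric.ball (0 : InfinitePlace K → ℂ) 1) ∩ outGrp K 𝔫 v₀) :=
        (hUo.preimage hpc).inter hE₀open
      have hne : (splitProj129 K v₀ ⁻¹'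
          ((v₀.adicCompletionIntegers K : Set (v₀.adicCompletion K)) ×ˢ
          Metric.ball (0 : InfinitePlace K → ℂ) 1) ∩ outGrp K 𝔫 v₀).Nonempty := by
        refine ⟨0, ?_, zero_mem_outGrp904 K 𝔫 v₀⟩
        show splitProj129 K v₀ 0 ∈
          ((v₀.adicCompletionIntegers K : Set (v₀.adicCompletion K)) ×ˢ
            Metric.ball (0 : InfinitePlace K → ℂ) 1)
        rw [splitProj_zero904]
        exact h0U
      exact (hopen.measure_pos ν hne).ne'
    intro h0
    rw [h0] at hle
    exact hU (le_antisymm hle bot_le)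
  -- finiteness
  have hfin : Measure.map (splitProj129 K v₀) (ν.restrict (outGrp K 𝔫 v₀))
      ((v₀.adicCompletionIntegers K : Set (v₀.adicCompletion K)) ×ˢ
        Metric.closedBall (0 : InfinitePlace K → ℂ) 1) ≠ ⊤ := by
    obtain ⟨D, hD, hsub⟩ := h3 𝔫 v₀
    have hK0m : MeasurableSet ((v₀.adicCompletionIntegers K : Set (v₀.adicCompletion K)) ×ˢ
        Metric.closedBall (0 : InfinitePlace K → ℂ) 1) := hK0c.isClosed.measurableSet
    rw [Measure.map_apply hpm hK0m, Measure.restrict_apply (hpm hK0m)]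
    refine ((measure_mono ?_).trans_lt hD.measure_lt_top).ne
    rintro X ⟨hX1, hX2⟩
    have hX1' : splitProj129 K v₀ X ∈
        ((v₀.adicCompletionIntegers K : Set (v₀.adicCompletion K)) ×ˢ
        Metric.closedBall (0 : InfinitePlace K → ℂ) 1) := hX1
    refine hsub X hX2 ?_ ?_
    · exact hX1'.1
    · intro w
      have hb : (fun w => infHom K w X) ∈ Metric.closedBall (0 : InfinitePlace K → ℂ) 1 :=
        hX1'.2
      rw [mem_closedBall_zero_iff] at hb
      exact (norm_le_pi_norm (fun w => infHom K w X) w).trans hb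
  exact Measure.isAddHaarMeasure_of_isCompact_nonempty_interior _ _ hK0c hK0i hpos hfin

end Fermat.Agent.LT.T3.H904

end
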