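import Mathlib
import Fermat.Agent.LT.T3.Spec

/-!
# Row LT, tower T3, sub-leaf T3.15 `EKStarC` (helper904)

OFF-MAIN.  `f` Eisenstein-killing with respect to `α` implies `f^*` Eisenstein-killing with
respect to `α`.

* `ScaleInvC K` : multiplication by a principal idele preserves every Haar measure of `𝔸_K`
  (product formula in measure form).
* `ekStar_of_scaleInv` : `ScaleInvC K → T3.EKStarC K`  (this file, imports `T3/Spec` only).
* `EKStarT1.lean` : `scaleInv_of : T1.LocCompC K → T1.AddFundDomC K → ScaleInvC K` and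
  `ekStar_of : T1.LocCompC K → T1.AddFundDomC K → T3.EKStarC K`.
-/

set_option autoImplicit false
set_option linter.style.haveILetI false

open IsDedekindDomain NumberField MeasureTheory
open Fermat.Agent.LT.H556.A0

noncomputable section

namespace Fermat.Agent.LT.T3.H904

variable (K : Type) [Field K] [NumberField K]

/-! ## Algebra in `GL₂(𝔸_K)` -/

theorem unip_mul_unip (x y : Adl K) : unip K x * unip K y = unip K (x + y) := by
  apply Units.ext
  simp only [Units.val_mul, unip_coe]
  ext i j
  fin_cases i <;> fin_cases j <;> simp [Matrix.mul_apply, Fin.sum_univ_two, add_comm]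

theorem unip_zero : unip K 0 = 1 := by
  apply Units.ext
  rw [unip_coe]
  ext i j
  fin_cases i <;> fin_cases j <;> simp

theorem unip_inv (x : Adl K) : (unip K x)⁻¹ = unip K (-x) := by
  rw [inv_eq_iff_mul_eq_one, unip_mul_unip, add_neg_cancel, unip_zero]

theorem torK_coe (α : Kˣ) :
    ((torK K α : G K) : Matrix (Fin 2) (Fin 2) (Adl K)) = !![emb K (α : K), 0; 0, 1] := rfl

theorem torK_mul (α β : Kˣ) : torK K α * torK K β = torK K (α * β) := by
  apply Units.ext
  simp only [Units.val_mul, torK_coe]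
  ext i j
  fin_cases i <;> fin_cases j <;> simp [Matrix.mul_apply, Fin.sum_univ_two]

theorem torK_one : torK K 1 = 1 := by
  apply Units.ext
  rw [torK_coe]
  ext i j
  fin_cases i <;> fin_cases j <;> simp

/-- `torK` as a monoid homomorphism. -/
def torKHom : Kˣ →* G K where
  toFun := torK K
  map_one' := torK_one K
  map_mul' a b := (torK_mul K a b).symm

theorem torK_zpow (α : Kˣ) (j : ℤ) : torK K α ^ j = torK K (α ^ j) :=
  (map_zpow (torKHom K) α j).symm

theorem torK_mul_unip (β : Kˣ) (y : Adl K) :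
    torK K β * unip K y = unip K (emb K (β : K) * y) * torK K β := by
  apply Units.ext
  simp only [Units.val_mul, torK_coe, unip_coe]
  ext i j
  fin_cases i <;> fin_cases j <;> simp [Matrix.mul_apply, Fin.sum_univ_two]

/-- The inverse of the argument of the EK integrand. -/
theorem inv_arg (α : Kˣ) (g g' : G K) (x : Adl K) (j : ℤ) :
    (g⁻¹ * unip K x * torK K α ^ j * g')⁻¹
      = g'⁻¹ * unip K (emb K (((-(α ^ (-j)) : Kˣ)) : K) * x) * torK K α ^ (-j) * g := by
  have h1 : (g⁻¹ * unip K x * torK K α ^ j * g')⁻¹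
      = g'⁻¹ * ((torK K α ^ j)⁻¹ * (unip K x)⁻¹) * g := by
    simp only [mul_inv_rev, inv_inv, mul_assoc]
  rw [h1, ← zpow_neg, unip_inv, torK_zpow, torK_mul_unip]
  have h2 : emb K ((α ^ (-j) : Kˣ) : K) * -x = emb K (((-(α ^ (-j)) : Kˣ)) : K) * x := by
    simp [Units.val_neg]
  rw [h2]
  simp only [mul_assoc]

/-! ## Scaling by principal ideles -/

/-- The principal idele of `ξ ∈ Kˣ`. -/
def embU (ξ : Kˣ) : (Adl K)ˣ := Units.map (emb K).toMonoidHom ξ

@[simp] theorem embU_coe (ξ : Kˣ) : ((embU K ξ : (Adl K)ˣ) : Adl K) = emb K (ξ : K) := rfl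

/-- Multiplication by a unit of `𝔸_K` as a homeomorphism. -/
def mulHomeo (c : (Adl K)ˣ) : Adl K ≃ₜ Adl K where
  toFun x := (c : Adl K) * x
  invFun x := ((c⁻¹ : (Adl K)ˣ) : Adl K) * x
  left_inv x := by simp
  right_inv x := by simp
  continuous_toFun := continuous_const.mul continuous_id
  continuous_invFun := continuous_const.mul continuous_id

@[simp] theorem mulHomeo_apply (c : (Adl K)ˣ) (x : Adl K) : mulHomeo K c x = (c : Adl K) * x := rfl

/-- **Product formula, measure form**: multiplication by a principal idele preserves every Haar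
measure of `𝔸_K`. -/
def ScaleInvC : Prop :=
  letI : MeasurableSpace (Adl K) := borel (Adl K)
  ∀ ν : Measure (Adl K), ν.IsAddHaarMeasure → ∀ ξ : Kˣ,
    Measure.map (fun x : Adl K => emb K (ξ : K) * x) ν = ν

/-- Change of variables `x ↦ ξ x` in an integral over `𝔸_K` (no measurability needed). -/
theorem integral_scale (h : ScaleInvC K) :
    letI : MeasurableSpace (Adl K) := borel (Adl K)
    ∀ ν : Measure (Adl K), ν.IsAddHaarMeasure → ∀ (ξ : Kˣ) (F : Adl K → ℂ),
      ∫ x, F (emb K (ξ : K) * x) ∂ν = ∫ x, F x ∂ν := by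
  letI : MeasurableSpace (Adl K) := borel (Adl K)
  haveI : BorelSpace (Adl K) := ⟨rfl⟩
  intro ν hν ξ F
  have hemb : MeasurableEmbedding (fun x : Adl K => emb K (ξ : K) * x) :=
    (mulHomeo K (embU K ξ)).measurableEmbedding
  have := hemb.integral_map (μ := ν) F
  rw [h ν hν ξ] at this
  exact this.symm

/-! ## T3.15 -/

/-- **T3.15 from the product formula in measure form.** -/
theorem ekStar_of_scaleInv (h : ScaleInvC K) : EKStarC K := by
  letI : MeasurableSpace (Adl K) := borel (Adl K)
  haveI : BorelSpace (Adl K) := ⟨rfl⟩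
  intro ν hν α f _hf _hfc hEK g g'
  have key : ∀ j : ℤ, ∫ x, starG K f (g⁻¹ * unip K x * torK K α ^ j * g') ∂ν
      = star (∫ x, f (g'⁻¹ * unip K x * torK K α ^ (-j) * g) ∂ν) := by
    intro j
    have h1 : (fun x : Adl K => starG K f (g⁻¹ * unip K x * torK K α ^ j * g'))
        = fun x : Adl K => (starRingEnd ℂ)
            ((fun y : Adl K => f (g'⁻¹ * unip K y * torK K α ^ (-j) * g))
              (emb K (((-(α ^ (-j)) : Kˣ)) : K) * x)) := by
      funext x
      simp only [starG, inv_arg]
    have h2 := integral_scale K h ν hν (-(α ^ (-j)))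
      (fun y : Adl K => f (g'⁻¹ * unip K y * torK K α ^ (-j) * g))
    rw [h1, integral_conj]
    simp only [] at h2 ⊢
    rw [h2]
    rfl
  have hs := hEK g' g
  have hs' : HasSum (fun j : ℤ => ∫ x, f (g'⁻¹ * unip K x * torK K α ^ (-j) * g) ∂ν) 0 :=
    (Equiv.neg ℤ).hasSum_iff.mpr hs
  have hs'' := hs'.star
  simp only [star_zero] at hs''
  have hfun : (fun j : ℤ => ∫ x, starG K f (g⁻¹ * unip K x * torK K α ^ j * g') ∂ν)
      = fun j : ℤ => star (∫ x, f (g'⁻¹ * unip K x * torK K α ^ (-j) * g) ∂ν) :=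
    funext key
  rw [hfun]
  exact hs''

end Fermat.Agent.LT.T3.H904

end
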