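import Mathlib
import Fermat.Agent.LT.T3.H904.EKStar
import Fermat.Agent.LT.T1.Spec

/-!
# Row LT, tower T3, sub-leaf T3.15 `EKStarC` from the interface of tower T1 (helper904)

OFF-MAIN.

* `scaleInv_of` : `T1.LocCompC K → T1.AddFundDomC K → ScaleInvC K` -- the product formula in
  measure form (Weil's proof: `x ↦ ξ x` is an automorphism of `𝔸_K` which maps the lattice `K`
  onto itself, hence maps a fundamental domain to a fundamental domain, hence has module `1`).
* `ekStar_of` : `T1.LocCompC K → T1.AddFundDomC K → T3.EKStarC K`.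
-/

set_option autoImplicit false
set_option linter.style.haveILetI false

open IsDedekindDomain NumberField MeasureTheory
open Fermat.Agent.LT.H556.A0

noncomputable section

namespace Fermat.Agent.LT.T3.H904

variable (K : Type) [Field K] [NumberField K]

/-! ## The product formula in measure form, from the lattice `K ⊂ 𝔸_K` -/

/-- Multiplication by a unit of `𝔸_K` as a continuous additive automorphism. -/
def mulCAE (c : (Adl K)ˣ) : Adl K ≃ₜ+ Adl K :=
  { mulHomeo K c with
    map_add' := fun x y => by simp [mul_add] }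

@[simp] theorem mulCAE_apply (c : (Adl K)ˣ) (x : Adl K) : mulCAE K c x = (c : Adl K) * x := rfl

theorem countable_princ : Countable (T1.princ K) := by
  haveI : Countable K := Finsupp.Countable.of_moduleFinite (R := ℚ) (M := K)
  have : (T1.princ K : Set (Adl K)) = Set.range (algebraMap K (Adl K)) := by
    ext x
    simp [T1.princ]
  have hc : (T1.princ K : Set (Adl K)).Countable := by
    rw [this]
    exact Set.countable_range _
  exact hc.to_subtype

/-- Multiplication by `ξ⁻¹` on the principal adeles. -/
def princScale (ξ : Kˣ) : T1.princ K → T1.princ K := fun g =>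
  ⟨emb K ((ξ⁻¹ : Kˣ) : K) * (g : Adl K), by
    obtain ⟨η, hη⟩ := g.2
    refine ⟨((ξ⁻¹ : Kˣ) : K) * η, ?_⟩
    simp only [RingHom.toAddMonoidHom_eq_coe, AddMonoidHom.coe_coe] at hη ⊢
    rw [map_mul, hη]⟩

theorem princScale_bijective (ξ : Kˣ) : Function.Bijective (princScale K ξ) := by
  refine Function.bijective_iff_has_inverse.mpr ⟨princScale K ξ⁻¹, ?_, ?_⟩
  · intro g
    apply Subtype.ext
    simp only [princScale, inv_inv]
    rw [← mul_assoc, ← map_mul]
    simp
  · intro g
    apply Subtype.ext
    simp only [princScale, inv_inv]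
    rw [← mul_assoc, ← map_mul]
    simp

/-- **The product formula in measure form** from local compactness and the existence of a
fundamental domain of finite positive measure for `K` in `𝔸_K`. -/
theorem scaleInv_of (hLC : T1.LocCompC K) (hFD : T1.AddFundDomC K) : ScaleInvC K := by
  letI : MeasurableSpace (Adl K) := borel (Adl K)
  haveI : BorelSpace (Adl K) := ⟨rfl⟩
  obtain ⟨⟨hlc, ht2, hsc⟩, -⟩ := hLC
  haveI := hlc
  haveI := ht2
  haveI := hsc
  haveI := countable_princ K
  intro ν hν ξ
  haveI := hν
  set φ : Adl K ≃ₜ+ Adl K := mulCAE K (embU K ξ) with hφ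
  have hφfun : (fun x : Adl K => emb K (ξ : K) * x) = φ := rfl
  rw [hφfun]
  haveI hν' : (Measure.map φ ν).IsAddHaarMeasure := φ.isAddHaarMeasure_map ν
  have hsm : Measure.map φ ν = Measure.addHaarScalarFactor (Measure.map φ ν) ν • ν :=
    Measure.isAddLeftInvariant_eq_smul (Measure.map φ ν) ν
  set s := Measure.addHaarScalarFactor (Measure.map φ ν) ν with hs
  obtain ⟨D, hDm, hD, -, hpos, hfin⟩ := hFD ν hν
  have hqmp : Measure.QuasiMeasurePreserving φ ν ν := by
    refine ⟨φ.continuous.measurable, ?_⟩
    rw [hsm]
    exact Measure.smul_absolutelyContinuous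
  have hD' : IsAddFundamentalDomain (T1.princ K) (φ ⁻¹' D) ν := by
    refine hD.preimage_of_equiv hqmp (princScale_bijective K ξ) ?_
    intro g x
    change φ (princScale K ξ g +ᵥ x) = g +ᵥ φ x
    simp only [hφ, mulCAE_apply, embU_coe, princScale, AddSubgroup.vadd_def, vadd_eq_add, mul_add]
    rw [← mul_assoc, ← map_mul]
    simp
  have hmeas : ν (φ ⁻¹' D) = ν D := hD'.measure_eq hD
  have h1 : Measure.map φ ν D = ν D := by
    rw [Measure.map_apply hqmp.measurable hDm]
    exact hmeas
  have h2 : (s : ENNReal) * ν D = ν D := by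
    have := h1
    rw [hsm] at this
    simpa using this
  have hs1 : (s : ENNReal) = 1 := by
    have h3 : (s : ENNReal) * ν D = 1 * ν D := by rw [h2, one_mul]
    exact (ENNReal.mul_left_inj hpos.ne' hfin.ne).mp h3
  rw [hsm]
  have : s = 1 := by exact_mod_cast hs1
  rw [this, one_smul]

/-- **T3.15 `EKStarC`** from the interface Props of tower T1. -/
theorem ekStar_of (hLC : T1.LocCompC K) (hFD : T1.AddFundDomC K) : EKStarC K :=
  ekStar_of_scaleInv K (scaleInv_of K hLC hFD)

end Fermat.Agent.LT.T3.H904

end
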