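import Mathlib
import Fermat.Agent.LT.T3.H904.EKStarT1

/-!
# Row LT, tower T3, sub-leaf T3.15 in the leaf shape of Spec v2 (helper904)

OFF-MAIN.  `T3/Spec.lean` = helper14@0239b9a63 (v2).

* `ekStar_v2 : T3.InLocCompC K → T3.InDiscreteC K → T3.HaarScaleC K → T3.EKStarC K`
  -- the field `ekStar` of `T3.Leaves K` (only `HaarScaleC` is used).
* `haarScale_of : T1.LocCompC K → T1.AddFundDomC K → T3.HaarScaleC K`
  -- the input `T3In.haarScale` (product formula in measure form) from the interface of T1.
* `haarScale_of_in : T3.InLocCompC K → T3.InFundDomC K → T3.HaarScaleC K`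
  -- the same from the inputs of T3 (Part C of the Spec).
-/

set_option autoImplicit false
set_option linter.style.haveILetI false

open IsDedekindDomain NumberField MeasureTheory
open Fermat.Agent.LT.H556.A0

noncomputable section

namespace Fermat.Agent.LT.T3.H904

variable (K : Type) [Field K] [NumberField K]

/-- **T3.15**, leaf shape of `T3.Leaves.ekStar` (Spec v2). -/
theorem ekStar_v2 (_h1 : InLocCompC K) (_h2 : InDiscreteC K) (h3 : HaarScaleC K) :
    EKStarC K :=
  ekStar_of_scaleInv K h3

/-- The input `HaarScaleC` of T3 from the interface of T1. -/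
theorem haarScale_of (hLC : T1.LocCompC K) (hFD : T1.AddFundDomC K) : HaarScaleC K :=
  scaleInv_of K hLC hFD

/-- The input `HaarScaleC` of T3 from the inputs `InLocCompC`, `InFundDomC` of T3. -/
theorem haarScale_of_in (hLC : InLocCompC K) (hFD : InFundDomC K) : HaarScaleC K :=
  scaleInv_of K hLC hFD

end Fermat.Agent.LT.T3.H904

end
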